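import Fermat.Prelude.Def_AlgebraicCurve_IsCurveOver

/-!
# Basic facts on places: order versus membership, places from valuation subrings, residues
-/

set_option autoImplicit false

noncomputable section

open AlgebraicCurve IsLocalRing

namespace Fermat.Agent.JacTorsion

variable {K F : Type*} [Field K] [Field F] [Algebra K F]

theorem ord_nonneg_of_mem (P : Place K F) {x : F} (hx : x ∈ P.toValuationSubring) :
    0 ≤ P.ord x := by
  rcases eq_or_ne x 0 with rfl | h0
  · simp
  by_contra hlt
  push Not at hlt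
  obtain ⟨π, hπ⟩ := IsDiscreteValuationRing.exists_irreducible P.toValuationSubring
  obtain ⟨u, hu⟩ := P.exists_unit_mul_zpow h0 hπ
  obtain ⟨n, hn⟩ : ∃ n : ℕ, P.ord x = -((n + 1 : ℕ) : ℤ) :=
    ⟨(-P.ord x - 1).toNat, by omega⟩
  rw [hn, zpow_neg, zpow_natCast] at hu
  have hπ0 : (π : F) ≠ 0 := by simpa using hπ.ne_zero
  have h1 : (⟨x, hx⟩ : P.toValuationSubring) * π ^ (n + 1) = (u : P.toValuationSubring) :=
    Subtype.ext (by push_cast; rw [hu]; field_simp)
  refine hπ.not_isUnit (isUnit_of_mul_isUnit_right (x := ⟨x, hx⟩ * π ^ n) ?_)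
  rw [mul_assoc, ← pow_succ, h1]
  exact u.isUnit

theorem mem_of_ord_nonneg (P : Place K F) {x : F} (hx : 0 ≤ P.ord x) :
    x ∈ P.toValuationSubring := by
  rcases eq_or_ne x 0 with rfl | h0
  · exact zero_mem _
  obtain ⟨π, hπ⟩ := IsDiscreteValuationRing.exists_irreducible P.toValuationSubring
  obtain ⟨u, hu⟩ := P.exists_unit_mul_zpow h0 hπ
  obtain ⟨n, hn⟩ := Int.eq_ofNat_of_zero_le hx
  rw [hn] at hu
  simp only [zpow_natCast] at hu
  rw [hu]
  exact mul_mem (u : P.toValuationSubring).2 (pow_mem π.2 n)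

theorem mem_iff_ord_nonneg (P : Place K F) {x : F} :
    x ∈ P.toValuationSubring ↔ 0 ≤ P.ord x :=
  ⟨ord_nonneg_of_mem P, mem_of_ord_nonneg P⟩

theorem valuation_lt_one_iff (P : Place K F) {x : F} :
    P.toValuationSubring.valuation x < 1 ↔ x = 0 ∨ 0 < P.ord x := by
  rcases eq_or_ne x 0 with rfl | h0
  · simp
  have hpos : 0 < P.toValuationSubring.valuation x := zero_lt_iff.mpr (by simpa using h0)
  rw [← not_le, ← inv_le_one₀ hpos, ← map_inv₀, ValuationSubring.valuation_le_one_iff,
    mem_iff_ord_nonneg, P.ord_inv]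
  simp [h0]

theorem valuation_eq_one_iff (P : Place K F) {x : F} (h0 : x ≠ 0) :
    P.toValuationSubring.valuation x = 1 ↔ P.ord x = 0 := by
  rw [le_antisymm_iff, ← not_lt (b := (1 : P.toValuationSubring.ValueGroup)), valuation_lt_one_iff,
    ValuationSubring.valuation_le_one_iff, mem_iff_ord_nonneg]
  simp only [h0, false_or]
  omega

theorem ord_pow (P : Place K F) (x : F) (n : ℕ) : P.ord (x ^ n) = n * P.ord x := by
  simpa using P.ord_zpow x n

theorem ord_div (P : Place K F) {x y : F} (hx : x ≠ 0) (hy : y ≠ 0) :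
    P.ord (x / y) = P.ord x - P.ord y := by
  rw [div_eq_mul_inv, P.ord_mul hx (inv_ne_zero hy), P.ord_inv]; ring

theorem ord_algebraMap (P : Place K F) (a : K) : P.ord (algebraMap K F a) = 0 := by
  rcases eq_or_ne a 0 with rfl | ha
  · simp
  have h1 := ord_nonneg_of_mem P (P.algebraMap_mem' a)
  have h2 := ord_nonneg_of_mem P (P.algebraMap_mem' a⁻¹)
  rw [map_inv₀, P.ord_inv] at h2
  omega

theorem exists_ord_eq_one (P : Place K F) : ∃ t : F, t ≠ 0 ∧ P.ord t = 1 := by
  obtain ⟨π, hπ⟩ := IsDiscreteValuationRing.exists_irreducible P.toValuationSubring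
  exact ⟨π, by simpa using hπ.ne_zero, P.ord_coe_irreducible hπ⟩

/-- The residue of every element of the valuation ring is a constant. -/
def ResidueConst (P : Place K F) : Prop :=
  ∀ y ∈ P.toValuationSubring, ∃ c : K,
    P.toValuationSubring.valuation (y - algebraMap K F c) < 1

theorem residueConst_of_finite [IsAlgClosed K] (P : Place K F)
    [Module.Finite K P.ResidueField] : ResidueConst P := by
  intro y hy
  have : Algebra.IsIntegral K P.ResidueField := Algebra.IsIntegral.of_finite K P.ResidueField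
  obtain ⟨c, hc⟩ := (IsAlgClosed.algebraMap_bijective_of_isIntegral (k := K)
    (K := P.ResidueField)).surjective (IsLocalRing.residue _ ⟨y, hy⟩)
  refine ⟨c, ?_⟩
  have h2 : (⟨y, hy⟩ : P.toValuationSubring) - algebraMap K P.toValuationSubring c
      ∈ IsLocalRing.maximalIdeal P.toValuationSubring := by
    rw [← IsLocalRing.residue_eq_zero_iff, map_sub, ← hc, sub_eq_zero]
    rfl
  exact (ValuationSubring.valuation_lt_one_iff _ _).mp h2

/-- A valuation subring whose value group is generated by a single element defines a place. -/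
theorem exists_place_of_valuationSubring (A : ValuationSubring F)
    (hK : ∀ a : K, algebraMap K F a ∈ A) {t : F} (ht0 : t ≠ 0) (ht : A.valuation t < 1)
    (hgen : ∀ x : F, x ≠ 0 → ∃ n : ℤ, A.valuation x = A.valuation t ^ n) :
    ∃ P : Place K F, P.toValuationSubring = A ∧ P.ord t = 1 := by
  have htA : t ∈ A := (A.valuation_le_one_iff t).mp ht.le
  have hvt0 : (0 : A.ValueGroup) < A.valuation t :=
    zero_lt_iff.mpr (by simpa using ht0)
  have hirr : Irreducible (⟨t, htA⟩ : A) := by
    refine ⟨fun h => ?_, ?_⟩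
    · exact ht.ne ((A.valuation_eq_one_iff ⟨t, htA⟩).mp h)
    intro a b hab
    by_contra! hcon
    have ha := (A.valuation_lt_one_iff a).mp hcon.1
    have hb := (A.valuation_lt_one_iff b).mp hcon.2
    have hab' : t = (a : F) * b := congrArg Subtype.val hab
    have ha0 : (a : F) ≠ 0 := fun h => ht0 (by rw [hab', h, zero_mul])
    have hb0 : (b : F) ≠ 0 := fun h => ht0 (by rw [hab', h, mul_zero])
    obtain ⟨i, hi⟩ := hgen _ ha0
    obtain ⟨j, hj⟩ := hgen _ hb0
    have hi1 : 0 < i := by
      by_contra h; push Not at h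
      exact absurd (hi ▸ one_le_zpow_of_nonpos₀ hvt0 ht.le h) (not_le.mpr ha)
    have hj1 : 0 < j := by
      by_contra h; push Not at h
      exact absurd (hj ▸ one_le_zpow_of_nonpos₀ hvt0 ht.le h) (not_le.mpr hb)
    have h1 : A.valuation t ^ (1 : ℤ) = A.valuation t ^ (i + j) := by
      rw [zpow_one, zpow_add₀ hvt0.ne', ← hi, ← hj, ← map_mul, ← hab']
    have := (zpow_right_strictAnti₀ hvt0 ht).injective h1
    omega
  have hfac : IsDiscreteValuationRing.HasUnitMulPowIrreducibleFactorization A := by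
    refine ⟨⟨t, htA⟩, hirr, fun {x} hx => ?_⟩
    obtain ⟨n, hn⟩ := hgen x (by simpa using hx)
    have hn0 : 0 ≤ n := by
      by_contra h; push Not at h
      have h' : A.valuation (x : F) ≤ 1 := A.valuation_le_one x
      rw [hn] at h'
      exact absurd h' (not_le.mpr (one_lt_zpow_of_neg₀ hvt0 ht h))
    obtain ⟨k, rfl⟩ := Int.eq_ofNat_of_zero_le hn0
    simp only [zpow_natCast] at hn
    have hu : A.valuation ((x : F) / t ^ k) = 1 := by
      rw [map_div₀, map_pow, ← hn, div_self]; simpa using hx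
    refine ⟨k, ((A.valuation_eq_one_iff ⟨_, (A.valuation_le_one_iff _).mp hu.le⟩).mpr hu).unit, ?_⟩
    refine Subtype.ext ?_
    push_cast [IsUnit.unit_spec]
    field_simp
  have hdvr := IsDiscreteValuationRing.ofHasUnitMulPowIrreducibleFactorization hfac
  refine ⟨⟨A, hK, ?_, inferInstance⟩, rfl, ?_⟩
  · rintro rfl
    have h := (ValuationSubring.mem_top t⁻¹ : t⁻¹ ∈ (⊤ : ValuationSubring F))
    rw [← ValuationSubring.valuation_le_one_iff, map_inv₀,
      inv_le_one₀ hvt0] at h
    exact absurd h (not_le.mpr ht)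
  · exact Place.ord_coe_irreducible
      (⟨A, hK, _, inferInstance⟩ : Place K F) (π := (⟨t, htA⟩ : A)) hirr

end Fermat.Agent.JacTorsion
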