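import Fermat.Agent.JacTorsion.CharInjective
import Fermat.Agent.JacTorsion.CharSurjective
import Fermat.Agent.JacTorsion.DescentEquiv
import Fermat.Prelude.Def_ModularCurve_GenusNumerics

/-!
# The `m`-torsion of `J₀(N)`

`torsionEquiv : J₀(N)(ℚ̄)[m] ≃+ ellParHoms (Gamma0 N) (ZMod m)` and `natCard_torsion_JZero`.
-/

set_option autoImplicit false
set_option linter.unusedSectionVars false

noncomputable section

open UpperHalfPlane hiding I
open ModularCurve AlgebraicCurve CongruenceSubgroup
open Fermat.Agent.ModFun
open scoped MatrixGroups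

namespace Fermat.Agent.JacTorsion

section Transfer

variable {K F F' : Type*} [Field K] [Field F] [Field F'] [Algebra K F] [Algebra K F']
variable (e : F ≃ₐ[K] F')

/-- An isomorphism of function fields as a `ScalarExt`. -/
def algEquivExt : ScalarExt K K F F' where
  base := RingHom.id K
  emb := e.toRingEquiv.toRingHom
  emb_algebraMap a := e.commutes a
  exists_div x := ⟨x, Submodule.subset_span ⟨e.symm x, e.apply_symm_apply x⟩, 1,
    Submodule.subset_span ⟨1, map_one e⟩, one_ne_zero, (div_one x).symm⟩
  disjoint n c y h := ⟨c, e.injective (by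
    rw [map_one, map_sum, ← h]
    refine Finset.sum_congr rfl fun i _ => ?_
    rw [map_mul, AlgEquiv.commutes]
    rfl)⟩

theorem units_map_mem_divGrp_iff (hres : ∀ P : Place K F, ResidueConst P) {m : ℕ} (x : Fˣ) :
    Units.mapEquiv e.toRingEquiv.toMulEquiv x ∈ divGrp K F' m ↔ x ∈ divGrp K F m := by
  constructor
  · intro h P
    obtain ⟨P', hP'⟩ := exists_place_over (algEquivExt e) P (hres P)
    rw [← hP']
    exact h P'
  · intro h P'
    show (m : ℤ) ∣ P'.ord ((algEquivExt e).emb (x : F))
    rcases ord_restrict (algEquivExt e) hres P' with h' | ⟨P, h'⟩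
    · rw [h']; exact dvd_zero _
    · rw [h']; exact h P

/-- Transfer of functions with divisible divisor along an isomorphism. -/
def divGrpMap (hres : ∀ P : Place K F, ResidueConst P) (m : ℕ) :
    divGrp K F m →* divGrp K F' m :=
  ((Units.mapEquiv e.toRingEquiv.toMulEquiv).toMonoidHom.comp (Subgroup.subtype _)).codRestrict _
    fun x => (units_map_mem_divGrp_iff e hres _).mpr x.2

/-- Transfer of Kummer groups along an isomorphism. -/
def kummerMap (hres : ∀ P : Place K F, ResidueConst P) (m : ℕ) :
    KummerGrp K F m →* KummerGrp K F' m :=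
  QuotientGroup.map _ _ (divGrpMap e hres m) fun x hx => by
    obtain ⟨g, hg⟩ := hx
    refine ⟨Units.mapEquiv e.toRingEquiv.toMulEquiv g, ?_⟩
    rw [powMonoidHom_apply] at hg ⊢
    rw [← map_pow, hg]
    rfl

theorem kummerMap_bijective (hres : ∀ P : Place K F, ResidueConst P) (m : ℕ) :
    Function.Bijective (kummerMap e hres m) := by
  constructor
  · refine (injective_iff_map_eq_one _).mpr fun x hx => ?_
    obtain ⟨f, rfl⟩ := QuotientGroup.mk_surjective x
    obtain ⟨g, hg⟩ := (QuotientGroup.eq_one_iff _).mp hx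
    refine (QuotientGroup.eq_one_iff f).mpr
      ⟨(Units.mapEquiv e.toRingEquiv.toMulEquiv).symm g, ?_⟩
    rw [powMonoidHom_apply] at hg ⊢
    rw [← map_pow, hg]
    exact (Units.mapEquiv e.toRingEquiv.toMulEquiv).symm_apply_apply _
  · intro x
    obtain ⟨f, rfl⟩ := QuotientGroup.mk_surjective x
    have hmem := (units_map_mem_divGrp_iff e hres (m := m)
      ((Units.mapEquiv e.toRingEquiv.toMulEquiv).symm f)).mp (by
        rw [MulEquiv.apply_symm_apply]; exact f.2)
    refine ⟨QuotientGroup.mk ⟨_, hmem⟩, congrArg QuotientGroup.mk ?_⟩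
    exact Subtype.ext ((Units.mapEquiv e.toRingEquiv.toMulEquiv).apply_symm_apply _)

end Transfer

variable (N : ℕ) [NeZero N] (m : ℕ) [NeZero m]

/-- The monodromy map on Kummer groups. -/
def charHom : KummerGrp ℂ (FC N) m →* Multiplicative (Gamma0.ellParHoms (Gamma0 N) (ZMod m)) :=
  QuotientGroup.lift (powGrp ℂ (FC N) m)
    (MonoidHom.mk' (fun f => Multiplicative.ofAdd (rootChar N m f))
      fun f g => by rw [← ofAdd_add, ← rootChar_mul])
    fun f hf => by
      show Multiplicative.ofAdd (rootChar N m f) = 1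
      rw [rootChar_pow_eq_zero hf]; rfl

theorem charHom_mk (f : divGrp ℂ (FC N) m) :
    charHom N m (QuotientGroup.mk f) = Multiplicative.ofAdd (rootChar N m f) := rfl

theorem charHom_bijective : Function.Bijective (charHom N m) := by
  constructor
  · refine (injective_iff_map_eq_one _).mpr fun x hx => ?_
    obtain ⟨f, rfl⟩ := QuotientGroup.mk_surjective x
    exact (QuotientGroup.eq_one_iff f).mpr (mem_powGrp_of_rootChar_eq_zero hx)
  · intro x
    obtain ⟨f, hf⟩ := exists_rootChar_eq (N := N) (m := m) x.toAdd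
    exact ⟨QuotientGroup.mk f, by rw [charHom_mk, hf]; rfl⟩

theorem finite_ellParHoms : Finite (Gamma0.ellParHoms (Gamma0 N) (ZMod m)) :=
  Nat.finite_of_card_ne_zero (by
    rw [Gamma0.natCard_ellParHoms]
    exact pow_ne_zero _ (by simp [NeZero.ne m]))

/-- The identification of the two descriptions of the function field over `ℂ`. -/
abbrev eqC : laurentBaseChange ℂ (modularFunctionFieldFull N) ≃ₐ[ℂ] FC N :=
  (baseChangeEquiv N ℂ).symm

/-- `X₀(N)` over `ℚ̄` inside `X₀(N)` over `ℂ`. -/
def toC : modularFunctionFieldBar N →+* FC N :=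
  (eqC N).toRingEquiv.toRingHom.comp (extQ (modularFunctionFieldFull N)).emb

theorem coe_toC (x : modularFunctionFieldBar N) :
    (toC N x : LaurentSeries ℂ) = coeffMap ιQ (x : LaurentSeries (AlgebraicClosure ℚ)) := rfl

theorem residueConst_C (P : Place ℂ (laurentBaseChange ℂ (modularFunctionFieldFull N))) :
    ResidueConst P := residueConst_of_isFunctionField P

/-- Functions over `ℚ̄` with divisible divisor, over `ℂ`. -/
def divGrpToC : divGrp (AlgebraicClosure ℚ) (modularFunctionFieldBar N) m →*
    divGrp ℂ (FC N) m :=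
  (divGrpMap (eqC N) (residueConst_C N) m).comp (divGrpExt m)

theorem coe_divGrpToC (f : divGrp (AlgebraicClosure ℚ) (modularFunctionFieldBar N) m) :
    (((divGrpToC N m f : (FC N)ˣ)) : FC N)
      = toC N ((f : (modularFunctionFieldBar N)ˣ) : modularFunctionFieldBar N) := rfl

theorem gal_jBase (σ : ℂ ≃ₐ[ℚ] ℂ) :
    gal (modularFunctionFieldFull N) σ • jBase N ℂ = jBase N ℂ := by
  refine Subtype.ext ?_
  rw [coe_gal_smul, coe_jBase]
  exact coeffMap_jqModC _

/-- Monodromy on Kummer groups over `ℚ̄`. -/
def kummerChar : KummerGrp (AlgebraicClosure ℚ) (modularFunctionFieldBar N) m →*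
    Multiplicative (Gamma0.ellParHoms (Gamma0 N) (ZMod m)) :=
  (charHom N m).comp ((kummerMap (eqC N) (residueConst_C N) m).comp
    (kummerExt (F₀ := modularFunctionFieldFull N) m))

theorem kummerChar_bijective : Function.Bijective (kummerChar N m) := by
  have := finite_ellParHoms N m
  have hfin : Finite (KummerGrp ℂ (laurentBaseChange ℂ (modularFunctionFieldFull N)) m) :=
    Finite.of_injective _ ((charHom_bijective N m).injective.comp
      (kummerMap_bijective (eqC N) (residueConst_C N) m).injective)
  exact (charHom_bijective N m).comp ((kummerMap_bijective _ _ m).comp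
    ⟨kummerExt_injective m, kummerExt_surjective m hfin (transcendental_jBase N ℂ)
      (gal_jBase N)⟩)

/-- `J₀(N)(ℚ̄)[m]` as homomorphisms on `Γ₀(N)` killing elliptic and parabolic elements. -/
def torsionEquiv : Pic0.torsion (AlgebraicClosure ℚ) (modularFunctionFieldBar N) m ≃+
    Gamma0.ellParHoms (Gamma0 N) (ZMod m) :=
  (kummerEquiv (AlgebraicClosure ℚ) (modularFunctionFieldBar N) m).symm.trans
    { Equiv.ofBijective
        (fun x : Additive (KummerGrp (AlgebraicClosure ℚ) (modularFunctionFieldBar N) m) =>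
          (kummerChar N m x.toMul).toAdd)
        ((Multiplicative.toAdd.bijective).comp ((kummerChar_bijective N m).comp
          Additive.toMul.bijective)) with
      map_add' := fun x y => by
        show (kummerChar N m (x + y).toMul).toAdd = _
        rw [toMul_add, map_mul]
        rfl }

theorem torsionEquiv_toTorsion
    (f : divGrp (AlgebraicClosure ℚ) (modularFunctionFieldBar N) m) :
    torsionEquiv N m (toTorsion (Additive.ofMul f)) = rootChar N m (divGrpToC N m f) := by
  have h : (kummerEquiv (AlgebraicClosure ℚ) (modularFunctionFieldBar N) m).symm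
      (toTorsion (Additive.ofMul f)) = Additive.ofMul (QuotientGroup.mk f) := by
    rw [AddEquiv.symm_apply_eq]
    rfl
  rw [torsionEquiv, AddEquiv.trans_apply, h]
  rfl

/-- The characterising property of `torsionEquiv`. -/
theorem torsionEquiv_spec (f : divGrp (AlgebraicClosure ℚ) (modularFunctionFieldBar N) m)
    (h : MerH) (hh : h ^ m = e1 N (toC N ((f : (modularFunctionFieldBar N)ˣ) :
      modularFunctionFieldBar N))) (γ : Gamma0 N) :
    actMer (γ : SL(2, ℤ)) h = algebraMap ℂ MerH
      (Complex.exp (2 * Real.pi * Complex.I / m) ^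
        ((torsionEquiv N m (toTorsion (Additive.ofMul f))).1 (Additive.ofMul γ)).val) * h := by
  rw [torsionEquiv_toTorsion]
  exact rootChar_spec (divGrpToC N m f) h hh γ

/-- `#J₀(N)[m] = m ^ (2g)`. -/
theorem natCard_torsion_JZero :
    Nat.card (Pic0.torsion (AlgebraicClosure ℚ) (modularFunctionFieldBar N) m)
      = m ^ (2 * Gamma0.genus N) := by
  rw [Nat.card_congr (torsionEquiv N m).toEquiv, Gamma0.natCard_ellParHoms, Nat.card_zmod]

theorem finite_torsion_JZero :
    Finite (Pic0.torsion (AlgebraicClosure ℚ) (modularFunctionFieldBar N) m) :=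
  Nat.finite_of_card_ne_zero (by
    rw [natCard_torsion_JZero]; exact pow_ne_zero _ (NeZero.ne m))

end Fermat.Agent.JacTorsion
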