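import Mathlib.FieldTheory.IsAlgClosed.Classification
import Mathlib.Analysis.Complex.Polynomial.Basic
import Mathlib.Analysis.Complex.Cardinality

/-!
# Complex numbers with finitely many conjugates are algebraic
-/

set_option autoImplicit false

noncomputable section

open Cardinal

namespace Fermat.Agent.JacTorsion

theorem exists_ringEquiv_apply_eq {s : Set ℂ}
    (hs : IsTranscendenceBasis ℚ (fun x : s => (x : ℂ))) (e : s ≃ s) (i : s) :
    ∃ σ : ℂ ≃+* ℂ, σ (i : ℂ) = (e i : ℂ) := by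
  let v : s → ℂ := fun x => (x : ℂ)
  let A := Algebra.adjoin ℚ (Set.range v)
  have hA : IsAlgClosure A ℂ := IsAlgClosed.isAlgClosure_of_transcendence_basis v hs
  let φ : A ≃+* A := (hs.1.aevalEquiv.symm.trans
    ((MvPolynomial.renameEquiv ℚ e).trans hs.1.aevalEquiv)).toRingEquiv
  refine ⟨IsAlgClosure.equivOfEquiv ℂ ℂ φ, ?_⟩
  have hi : (i : ℂ) = algebraMap A ℂ ⟨i, Algebra.subset_adjoin ⟨i, rfl⟩⟩ := rfl
  have key : ∀ j : s, hs.1.aevalEquiv (MvPolynomial.X j)
      = (⟨j, Algebra.subset_adjoin ⟨j, rfl⟩⟩ : A) := fun j => by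
    refine Subtype.ext ?_
    simp [AlgebraicIndependent.aevalEquiv]
  rw [hi, IsAlgClosure.equivOfEquiv_algebraMap]
  have : φ ⟨i, Algebra.subset_adjoin ⟨i, rfl⟩⟩ = ⟨e i, Algebra.subset_adjoin ⟨e i, rfl⟩⟩ := by
    show hs.1.aevalEquiv (MvPolynomial.renameEquiv ℚ e (hs.1.aevalEquiv.symm _)) = _
    rw [← key i, AlgEquiv.symm_apply_apply, MvPolynomial.renameEquiv_apply,
      MvPolynomial.rename_X, key]
  rw [this]
  rfl

/-- A complex number with only finitely many conjugates is algebraic. -/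
theorem isAlgebraic_of_finite_orbit {c : ℂ}
    (h : (Set.range fun σ : ℂ ≃ₐ[ℚ] ℂ => σ c).Finite) : IsAlgebraic ℚ c := by
  by_contra hc
  have hind : AlgebraicIndepOn ℚ id ({c} : Set ℂ) := by
    have : AlgebraicIndependent ℚ (fun _ : ({c} : Set ℂ) => c) :=
      algebraicIndependent_unique_type_iff.mpr hc
    convert this using 1
    funext x
    exact x.2
  obtain ⟨s, hcs, hs⟩ := exists_isTranscendenceBasis_superset hind
  have hcard : ℵ₀ < #ℂ := by rw [mk_complex]; exact aleph0_lt_continuum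
  have hsinf : Infinite s := by
    have h1 := IsAlgClosed.cardinal_eq_cardinal_transcendence_basis_of_aleph0_lt'
      (fun x : s => (x : ℂ)) hs (by simp) hcard
    rw [infinite_iff, ← h1]
    exact hcard.le
  apply hsinf.not_finite
  let f : s → Set.range fun σ : ℂ ≃ₐ[ℚ] ℂ => σ c := fun d => ⟨d, by
    classical
    obtain ⟨σ, hσ⟩ := exists_ringEquiv_apply_eq hs (Equiv.swap ⟨c, hcs rfl⟩ d) ⟨c, hcs rfl⟩
    refine ⟨AlgEquiv.ofRingEquiv (f := σ) fun q => by simp, ?_⟩
    simpa using hσ⟩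
  have hf : Function.Injective f := fun a b hab => Subtype.ext (congrArg (fun x => (x.1 : ℂ)) hab)
  have := h.to_subtype
  exact Finite.of_injective f hf

end Fermat.Agent.JacTorsion
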