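import Fermat.Prelude.Def_ModularCurve_ArithmeticGalois
import Fermat.Agent.JacTorsion.CoeffExt
import Fermat.Agent.JacTorsion.AutC
import Fermat.Agent.Arith.Places

/-!
# Galois orbits of series with complex coefficients
-/

set_option autoImplicit false

noncomputable section

open ModularCurve AlgebraicCurve

-- the scalar action on the function fields is found first with these priorities
attribute [local instance 1100] SubalgebraClass.toAlgebra HahnSeries.powerSeriesAlgebra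
attribute [-instance] IsScalarTower.of_algHom

namespace Fermat.Agent.JacTorsion

variable (F₀ : IntermediateField ℚ (LaurentSeries ℚ))

/-- The function field over `ℚ̄`. -/
abbrev FQ : IntermediateField (AlgebraicClosure ℚ) (LaurentSeries (AlgebraicClosure ℚ)) :=
  laurentBaseChange (AlgebraicClosure ℚ) F₀

/-- The function field over `ℂ`. -/
abbrev FCx : IntermediateField ℂ (LaurentSeries ℂ) := laurentBaseChange ℂ F₀

/-- A fixed embedding of `ℚ̄` into `ℂ`. -/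
def ιQ : AlgebraicClosure ℚ →+* ℂ :=
  (IsAlgClosed.lift : AlgebraicClosure ℚ →ₐ[ℚ] ℂ).toRingHom

theorem mem_range_ιQ {c : ℂ} (hc : IsAlgebraic ℚ c) : c ∈ ιQ.range := by
  let φ : AlgebraicClosure ℚ →ₐ[ℚ] ℂ := IsAlgClosed.lift
  have hi : IsIntegral ℚ c := hc.isIntegral
  have hs : ((minpoly ℚ c).map (algebraMap ℚ (AlgebraicClosure ℚ))).Splits :=
    IsAlgClosed.splits _
  have hmem : c ∈ (minpoly ℚ c).rootSet ℂ := Polynomial.mem_rootSet.mpr
    ⟨minpoly.ne_zero hi, minpoly.aeval ℚ c⟩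
  rw [← hs.image_rootSet φ] at hmem
  obtain ⟨r, -, rfl⟩ := hmem
  exact ⟨r, rfl⟩

/-- The inclusion of the function field over `ℚ̄` into the one over `ℂ`. -/
def extQ : ScalarExt (AlgebraicClosure ℚ) ℂ (FQ F₀) (FCx F₀) :=
  let eq : cExt ιQ (FQ F₀) ≃ₐ[ℂ] FCx F₀ :=
    IntermediateField.equivOfEq (cExt_laurentBaseChange F₀)
  { base := ιQ
    emb := eq.toRingEquiv.toRingHom.comp (cEmb ιQ (FQ F₀))
    emb_algebraMap := fun a => by
      show eq (cEmb ιQ (FQ F₀) _) = _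
      rw [cEmb_algebraMap, AlgEquiv.commutes]
    exists_div := fun x => by
      obtain ⟨a, ha, b, hb, hb0, hx⟩ := exists_eq_div_cSpan ιQ (FQ F₀) (eq.symm x)
      have hmap : ∀ a ∈ cSpan ιQ (FQ F₀), eq a ∈ Submodule.span ℂ
          (Set.range (eq.toRingEquiv.toRingHom.comp (cEmb ιQ (FQ F₀)))) := fun a ha => by
        have := Submodule.mem_map_of_mem (f := eq.toLinearMap) ha
        rw [cSpan, Submodule.map_span, ← Set.range_comp] at this
        exact this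
      exact ⟨eq a, hmap a ha, eq b, hmap b hb, by simpa using hb0,
        by rw [← map_div₀, ← hx, AlgEquiv.apply_symm_apply]⟩
    disjoint := fun n c y h => by
      refine (cScalarExt ιQ (FQ F₀)).disjoint n c y (eq.injective ?_)
      rw [map_one, map_sum, ← h]
      refine Finset.sum_congr rfl fun i _ => ?_
      rw [map_mul, AlgEquiv.commutes]
      rfl }

theorem coe_extQ (x : FQ F₀) :
    ((extQ F₀).emb x : LaurentSeries ℂ) = coeffMap ιQ (x : LaurentSeries (AlgebraicClosure ℚ)) :=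
  rfl

/-- The action of `Aut ℂ` on the function field over `ℂ`. -/
abbrev gal (σ : ℂ ≃ₐ[ℚ] ℂ) : SemilinearAut ℂ (FCx F₀) := arithmeticGalois F₀ σ

theorem coe_gal_smul (σ : ℂ ≃ₐ[ℚ] ℂ) (x : FCx F₀) :
    ((gal F₀ σ • x : FCx F₀) : LaurentSeries ℂ) = coeffMap (σ : ℂ →+* ℂ) (x : LaurentSeries ℂ) :=
  rfl

/-- `x` has only finitely many conjugates. -/
def FiniteOrbit (x : FCx F₀) : Prop := (Set.range fun σ : ℂ ≃ₐ[ℚ] ℂ => gal F₀ σ • x).Finite

variable {F₀}

theorem finiteOrbit_of_fixed {x : FCx F₀} (h : ∀ σ, gal F₀ σ • x = x) : FiniteOrbit F₀ x :=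
  (Set.finite_singleton x).subset (by rintro _ ⟨σ, rfl⟩; exact h σ)

theorem FiniteOrbit.map₂ {x y : FCx F₀} (f : FCx F₀ → FCx F₀ → FCx F₀)
    (hf : ∀ (σ : ℂ ≃ₐ[ℚ] ℂ) (a b : FCx F₀), gal F₀ σ • f a b = f (gal F₀ σ • a) (gal F₀ σ • b))
    (hx : FiniteOrbit F₀ x) (hy : FiniteOrbit F₀ y) : FiniteOrbit F₀ (f x y) :=
  (hx.image2 f hy).subset (by
    rintro _ ⟨σ, rfl⟩
    exact ⟨_, ⟨σ, rfl⟩, _, ⟨σ, rfl⟩, (hf σ x y).symm⟩)

theorem FiniteOrbit.inv {x : FCx F₀} (hx : FiniteOrbit F₀ x) : FiniteOrbit F₀ x⁻¹ :=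
  (hx.image (·⁻¹)).subset (by
    rintro _ ⟨σ, rfl⟩
    exact ⟨_, ⟨σ, rfl⟩, (map_inv₀ (SemilinearAut.toRingAut (gal F₀ σ)) x).symm⟩)

theorem finiteOrbit_emb (x : FQ F₀) : FiniteOrbit F₀ ((extQ F₀).emb x) := by
  have key : ∀ (x : LaurentSeries (AlgebraicClosure ℚ)) (hx : x ∈ FQ F₀),
      FiniteOrbit F₀ ((extQ F₀).emb ⟨x, hx⟩) := by
    intro x hx
    induction hx using IntermediateField.adjoin_induction with
    | mem z hz =>
      obtain ⟨w, hw, rfl⟩ := hz
      refine finiteOrbit_of_fixed fun σ => Subtype.ext ?_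
      rw [coe_gal_smul, coe_extQ]
      show coeffMap (σ : ℂ →+* ℂ) (coeffMap ιQ (coeffEmb _ w)) = coeffMap ιQ (coeffEmb _ w)
      rw [coeffEmb, coeffMap_coeffMap, coeffMap_coeffMap, coeffMap_coeffMap]
      exact coeffMap_congr (RingHom.ext fun q => by simp) w
    | algebraMap a =>
      have halg : IsAlgebraic ℚ (ιQ a) := by
        have : IsAlgebraic ℚ a := Algebra.IsAlgebraic.isAlgebraic a
        exact this.algHom (IsAlgClosed.lift : AlgebraicClosure ℚ →ₐ[ℚ] ℂ)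
      have hfin : (Set.range fun σ : ℂ ≃ₐ[ℚ] ℂ => σ (ιQ a)).Finite :=
        ((minpoly ℚ (ιQ a)).rootSet_finite ℂ).subset (by
          rintro _ ⟨σ, rfl⟩
          refine Polynomial.mem_rootSet.mpr ⟨minpoly.ne_zero halg.isIntegral, ?_⟩
          simp only [Polynomial.aeval_algHom_apply, minpoly.aeval, map_zero])
      refine (hfin.image (algebraMap ℂ (FCx F₀))).subset ?_
      rintro _ ⟨σ, rfl⟩
      refine ⟨_, ⟨σ, rfl⟩, ?_⟩
      show algebraMap ℂ (FCx F₀) (σ (ιQ a))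
        = gal F₀ σ • (extQ F₀).emb (algebraMap (AlgebraicClosure ℚ) (FQ F₀) a)
      rw [(extQ F₀).emb_algebraMap, SemilinearAut.smul_algebraMap]
      rfl
    | add a b ha' hb' ha hb =>
      rw [show (⟨a + b, _⟩ : FQ F₀) = ⟨a, ha'⟩ + ⟨b, hb'⟩ from rfl, map_add]
      exact ha.map₂ (· + ·) (fun σ a b => smul_add (gal F₀ σ) a b) hb
    | inv a ha' ha =>
      rw [show (⟨a⁻¹, _⟩ : FQ F₀) = (⟨a, ha'⟩ : FQ F₀)⁻¹ from rfl, map_inv₀]
      exact ha.inv
    | mul a b ha' hb' ha hb =>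
      rw [show (⟨a * b, _⟩ : FQ F₀) = ⟨a, ha'⟩ * ⟨b, hb'⟩ from rfl, map_mul]
      exact ha.map₂ (· * ·) (fun σ a b => smul_mul' (gal F₀ σ) a b) hb
  exact key x.1 x.2

theorem mem_range_of_finiteOrbit {x : FCx F₀} (hx : FiniteOrbit F₀ x) :
    ∃ y : FQ F₀, (extQ F₀).emb y = x := by
  have hc : ∀ k : ℤ, ∃ a, ιQ a = (x : LaurentSeries ℂ).coeff k := fun k => by
    refine mem_range_ιQ (isAlgebraic_of_finite_orbit
      ((Set.Finite.image (fun z : FCx F₀ => (z : LaurentSeries ℂ).coeff k) (hx : Set.Finite _)).subset ?_))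
    rintro _ ⟨σ, rfl⟩
    exact ⟨_, ⟨σ, rfl⟩, rfl⟩
  choose a ha using hc
  have hsupp : Function.support a = (x : LaurentSeries ℂ).support := by
    ext k
    rw [Function.mem_support, HahnSeries.mem_support, ← ha k, ne_eq, ne_eq,
      map_eq_zero ιQ]
  let y : LaurentSeries (AlgebraicClosure ℚ) :=
    ⟨a, hsupp ▸ (x : LaurentSeries ℂ).isPWO_support⟩
  have hy : coeffMap ιQ y = (x : LaurentSeries ℂ) := HahnSeries.ext (funext ha)
  have hmem : y ∈ FQ F₀ := mem_of_coeffMap_mem_cExt (ι := ιQ) (by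
    rw [cExt_laurentBaseChange, hy]; exact x.2)
  exact ⟨⟨y, hmem⟩, Subtype.ext hy⟩

end Fermat.Agent.JacTorsion
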