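import Fermat.Agent.JacTorsion.Character

/-!
# A function with trivial monodromy is an `m`-th power
-/

set_option autoImplicit false
set_option linter.unusedSectionVars false

noncomputable section

open UpperHalfPlane hiding I
open AlgebraicCurve CongruenceSubgroup Filter
open Fermat.Agent.ModFun
open scoped MatrixGroups Manifold

namespace Fermat.Agent.JacTorsion

variable {N : ℕ} [NeZero N] {m : ℕ} [NeZero m]

theorem meroAtInfty_of_pow {f : ℍ → ℂ} (hf : MeroAtInfty (f ^ m)) : MeroAtInfty f := by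
  obtain ⟨n, hn⟩ := hf
  have hn' : IsBoundedAtImInfty (ModularForm.discriminant ^ (n * m) * f ^ m) :=
    isBounded_disc_pow_mul_of_le (Nat.le_mul_of_pos_right n (Nat.pos_of_ne_zero (NeZero.ne m))) hn
  rw [UpperHalfPlane.isBoundedAtImInfty_iff] at hn'
  obtain ⟨B, A, hA⟩ := hn'
  refine ⟨n, (UpperHalfPlane.isBoundedAtImInfty_iff).mpr ⟨max B 1, A, fun z hz => ?_⟩⟩
  have h1 := hA z hz
  simp only [Pi.mul_apply, Pi.pow_apply, pow_mul, ← mul_pow, norm_pow] at h1 ⊢
  rcases le_or_gt ‖ModularForm.discriminant z ^ n * f z‖ 1 with h2 | h2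
  · exact h2.trans (le_max_right _ _)
  · exact ((le_self_pow₀ h2.le (NeZero.ne m)).trans h1).trans (le_max_left _ _)

theorem mem_powGrp_of_rootChar_eq_zero {f : divGrp ℂ (FC N) m} (hf : rootChar N m f = 0) :
    f ∈ powGrp ℂ (FC N) m := by
  have hx0 := Units.ne_zero (f : (FC N)ˣ)
  obtain ⟨H, b, C, hH0, hb, hHC, hC, hh⟩ := exists_root hx0 f.2
  have hb' : e1 N (toFC N b) ≠ 0 :=
    (map_ne_zero _).mpr fun h => hb (toFC_injective (h.trans (map_zero (toFC N)).symm))
  have hinv : ∀ γ : Gamma0 N, actHol (γ : SL(2, ℤ)) H = H := fun γ => by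
    have h1 := rootChar_spec f _ hh γ
    rw [hf, ZeroMemClass.coe_zero, AddMonoidHom.zero_apply, zetaPow_zero] at h1
    have h2 := e1_algebraMap_inv γ.2 hb (c := 1) h1
    rwa [map_one, one_mul] at h2
  have hmem : (H : ℍ → ℂ) ∈ Hol N := by
    refine ⟨H.2, fun g hg τ => congrFun (congrArg Subtype.val (hinv ⟨g, hg⟩)) τ, fun g => ?_⟩
    refine meroAtInfty_of_pow (m := m) ?_
    have : (fun τ => (H : ℍ → ℂ) (g • τ)) ^ m = fun τ => (C : ℍ → ℂ) (g • τ) := by
      funext τ
      exact congrFun (congrArg Subtype.val hHC) (g • τ)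
    rw [this]
    exact C.2.2.2 g
  set H' : Hol N := ⟨_, hmem⟩ with hH'
  have hHH : holToHolH N H' = H := rfl
  have hne : toFC N H' / toFC N b ≠ 0 := by
    refine div_ne_zero (fun h => hH0 ?_) fun h => hb (toFC_injective (h.trans (map_zero (toFC N)).symm))
    rw [← hHH, toFC_injective (h.trans (map_zero (toFC N)).symm), map_zero]
  refine ⟨Units.mk0 _ hne, Units.ext ((e1 N).toRingHom.injective ?_)⟩
  show e1 N ((Units.mk0 _ hne ^ m : (FC N)ˣ) : FC N) = e1 N ((f : (FC N)ˣ) : FC N)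
  rw [Units.val_pow_eq_pow_val, Units.val_mk0, map_pow, map_div₀, e1_toFC, hHH]
  exact hh

end Fermat.Agent.JacTorsion
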