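import Mathlib.Analysis.Complex.HasPrimitives
import Mathlib.Analysis.Complex.UpperHalfPlane.Manifold
import Mathlib.Analysis.Analytic.Order
import Mathlib.Analysis.Complex.CauchyIntegral
import Mathlib.Analysis.SpecialFunctions.Pow.Complex
import Mathlib.RingTheory.RootsOfUnity.Complex
import Mathlib.RingTheory.Polynomial.Cyclotomic.Basic
import Mathlib.Analysis.Complex.Polynomial.Basic
import Mathlib.Algebra.CharZero.Defs

/-!
# Holomorphic `m`-th roots on the upper half plane

A holomorphic function on the upper half plane, not identically zero, all of whose zeros have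
order divisible by `m`, is the `m`-th power of a holomorphic function.
-/

set_option autoImplicit false

noncomputable section

open Complex Metric Set Filter Topology UpperHalfPlane
open scoped Manifold

namespace Fermat.Agent.JacTorsion

theorem exists_root_ball_of_ne_zero {m : ℕ} (hm : m ≠ 0) {C : ℂ → ℂ} {c : ℂ} {r : ℝ}
    (hC : DifferentiableOn ℂ C (ball c r)) (h0 : ∀ z ∈ ball c r, C z ≠ 0) :
    ∃ H : ℂ → ℂ, DifferentiableOn ℂ H (ball c r) ∧ ∀ z ∈ ball c r, H z ^ m = C z := by
  rcases le_or_gt r 0 with hr | hr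
  · exact ⟨0, by simp [ball_eq_empty.mpr hr], by simp [ball_eq_empty.mpr hr]⟩
  have hu : DifferentiableOn ℂ (fun z => deriv C z / C z) (ball c r) :=
    (hC.deriv isOpen_ball).div hC h0
  obtain ⟨L, hL⟩ := hu.isExactOn_ball
  obtain ⟨b, hb⟩ := IsAlgClosed.exists_pow_nat_eq (C c * exp (-L c)) (Nat.pos_of_ne_zero hm)
  have hLd : DifferentiableOn ℂ L (ball c r) :=
    fun z hz => (hL z hz).differentiableAt.differentiableWithinAt
  refine ⟨fun z => b * exp (L z / m), (hLd.div_const _).cexp.const_mul b, fun z hz => ?_⟩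
  have hconst : C z * exp (-L z) = C c * exp (-L c) := by
    refine isOpen_ball.is_const_of_deriv_eq_zero ((convex_ball c r).isPreconnected)
      (hC.mul hLd.neg.cexp) ?_ hz (mem_ball_self hr)
    intro w hw
    have h1 : HasDerivAt C (deriv C w) w :=
      ((hC w hw).differentiableAt (isOpen_ball.mem_nhds hw)).hasDerivAt
    have h3 := h1.mul (hL w hw).neg.cexp
    have h4 := h3.deriv
    simp only [Pi.zero_apply]
    refine Eq.trans h4 ?_
    field_simp [h0 w hw]
    ring
  simp only
  rw [mul_pow, hb, ← exp_nat_mul, ← hconst, mul_assoc, ← exp_add]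
  have : -L z + (m : ℂ) * (L z / m) = 0 := by
    rw [mul_div_cancel₀ _ (by exact_mod_cast hm)]; ring
  rw [this, exp_zero, mul_one]

theorem exists_root_ball {m : ℕ} (hm : m ≠ 0) {W : Set ℂ} (_hW : IsOpen W) {c : ℂ} {r : ℝ}
    (hsub : ball c r ⊆ W) (S : Finset ℂ) :
    ∀ C : ℂ → ℂ, AnalyticOnNhd ℂ C W → (∀ z ∈ ball c r, C z = 0 → z ∈ S) →
      (∀ z ∈ ball c r, ∃ n : ℕ, analyticOrderAt C z = (m * n : ℕ)) →
      ∃ H : ℂ → ℂ, DifferentiableOn ℂ H (ball c r) ∧ ∀ z ∈ ball c r, H z ^ m = C z := by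
  induction S using Finset.induction with
  | empty =>
    intro C hC hz _
    exact exists_root_ball_of_ne_zero hm (hC.differentiableOn.mono hsub)
      fun z hzb h => by simpa using hz z hzb h
  | insert a S ha ih =>
    intro C hC hz hord
    by_cases hab : a ∈ ball c r
    swap
    · refine ih C hC (fun z hzb h => ?_) hord
      rcases Finset.mem_insert.mp (hz z hzb h) with rfl | h'
      · exact absurd hzb hab
      · exact h'
    obtain ⟨n, hn⟩ := hord a hab
    obtain ⟨g, hg, hg0, hCg⟩ := (hC a (hsub hab)).analyticOrderAt_eq_natCast.mp hn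
    set C₁ : ℂ → ℂ := Function.update (fun z => C z / (z - a) ^ (m * n)) a (g a) with hC₁
    have heq : ∀ᶠ z in 𝓝 a, C₁ z = g z := by
      filter_upwards [hCg] with z hz'
      rcases eq_or_ne z a with rfl | hza
      · simp [hC₁]
      · have : (z - a) ^ (m * n) ≠ 0 := pow_ne_zero _ (sub_ne_zero.mpr hza)
        simp [hC₁, hza, hz', smul_eq_mul, this]
    have hmul : ∀ z, C z = (z - a) ^ (m * n) * C₁ z := by
      intro z
      rcases eq_or_ne z a with rfl | hza
      · simpa [hC₁] using hCg.self_of_nhds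
      · have : (z - a) ^ (m * n) ≠ 0 := pow_ne_zero _ (sub_ne_zero.mpr hza)
        simp [hC₁, hza]
        field_simp
    have hC₁an : AnalyticOnNhd ℂ C₁ W := by
      intro z hzW
      rcases eq_or_ne z a with rfl | hza
      · exact hg.congr (heq.mono fun _ h => h.symm)
      · have h1 : AnalyticAt ℂ (fun w => C w / (w - a) ^ (m * n)) z :=
          (hC z hzW).div (by fun_prop) (pow_ne_zero _ (sub_ne_zero.mpr hza))
        refine h1.congr ?_
        filter_upwards [eventually_ne_nhds hza] with w hw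
        simp [hC₁, hw]
    obtain ⟨H, hH, hHm⟩ := ih C₁ hC₁an (fun z hzb h => by
        rcases Finset.mem_insert.mp (hz z hzb (by rw [hmul z, h, mul_zero])) with rfl | h'
        · simp [hC₁, hg0] at h
        · exact h')
      (fun z hzb => by
        rcases eq_or_ne z a with rfl | hza
        · exact ⟨0, by rw [(hC₁an z (hsub hzb)).analyticOrderAt_eq_zero.mpr (by simpa [hC₁] using hg0)]; simp⟩
        · obtain ⟨k, hk⟩ := hord z hzb
          refine ⟨k, ?_⟩
          have hp : AnalyticAt ℂ (fun w => (w - a) ^ (m * n)) z := by fun_prop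
          have h2 : analyticOrderAt C z = analyticOrderAt ((fun w => (w - a) ^ (m * n)) * C₁) z :=
            congrArg (fun f => analyticOrderAt f z) (funext hmul)
          rw [analyticOrderAt_mul hp (hC₁an z (hsub hzb)),
            hp.analyticOrderAt_eq_zero.mpr (pow_ne_zero _ (sub_ne_zero.mpr hza)), zero_add] at h2
          rw [← h2, hk])
    refine ⟨fun z => (z - a) ^ n * H z,
      (DifferentiableOn.pow (differentiableOn_id.sub_const a) n).mul hH, fun z hzb => ?_⟩
    simp only
    rw [mul_pow, hHm z hzb, ← pow_mul, mul_comm n m, ← hmul z]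

/-- On a preconnected open set, two holomorphic functions with equal `m`-th powers differ by a
constant root of unity. -/
theorem exists_eqOn_mul_of_pow_eq {m : ℕ} (hm : m ≠ 0) {U : Set ℂ} (hU : IsPreconnected U)
    (hUo : IsOpen U) {f g : ℂ → ℂ} (hf : DifferentiableOn ℂ f U) (hg : DifferentiableOn ℂ g U)
    (h : ∀ z ∈ U, f z ^ m = g z ^ m) :
    ∃ ζ : ℂ, ζ ^ m = 1 ∧ ∀ z ∈ U, f z = ζ * g z := by
  classical
  have : NeZero m := ⟨hm⟩
  have key : ∀ s : Finset ℂ, (∀ z ∈ U, ∏ ζ ∈ s, (f z - ζ * g z) = 0) →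
      U = ∅ ∨ ∃ ζ ∈ s, ∀ z ∈ U, f z - ζ * g z = 0 := by
    intro s
    induction s using Finset.induction with
    | empty =>
      intro hs
      left
      exact eq_empty_of_forall_notMem fun z hz => by simpa using hs z hz
    | insert a s ha ih =>
      intro hs
      simp only [Finset.prod_insert ha] at hs
      have h1 : AnalyticOnNhd ℂ (fun z => f z - a * g z) U :=
        (hf.sub (hg.const_mul a)).analyticOnNhd hUo
      have hd : DifferentiableOn ℂ (fun z => ∏ ζ ∈ s, (f z - ζ * g z)) U :=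
        DifferentiableOn.fun_finsetProd fun ζ _ => hf.sub (hg.const_mul ζ)
      rcases AnalyticOnNhd.eq_zero_or_eq_zero_of_mul_eq_zero h1 (hd.analyticOnNhd hUo) hs hU
        with hh | hh
      · exact Or.inr ⟨a, Finset.mem_insert_self a s, hh⟩
      · rcases ih hh with h' | ⟨ζ, hζ, h'⟩
        · exact Or.inl h'
        · exact Or.inr ⟨ζ, Finset.mem_insert_of_mem hζ, h'⟩
  have hprim : IsPrimitiveRoot (exp (2 * Real.pi * Complex.I / m)) m := Complex.isPrimitiveRoot_exp m hm
  rcases key (Polynomial.nthRootsFinset m (1 : ℂ)) (fun z hz => by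
      rw [← IsPrimitiveRoot.pow_sub_pow_eq_prod_sub_mul _ _ (Nat.pos_of_ne_zero hm) hprim, h z hz, sub_self])
    with h' | ⟨ζ, hζ, h'⟩
  · exact ⟨1, one_pow m, by simp [h']⟩
  · exact ⟨ζ, (Polynomial.mem_nthRootsFinset (Nat.pos_of_ne_zero hm) (1 : ℂ)).mp hζ, fun z hz => sub_eq_zero.mp (h' z hz)⟩

/-- The balls exhausting the upper half plane. -/
def exRad (n : ℕ) : ℝ := (n : ℝ) + 1

/-- The balls exhausting the upper half plane. -/
def exBall (n : ℕ) : Set ℂ :=
  ball ((exRad n : ℂ) * Complex.I) (exRad n - 1 / (exRad n + 1))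

theorem mem_exBall {n : ℕ} {z : ℂ} :
    z ∈ exBall n ↔ dist z ((exRad n : ℂ) * Complex.I) < exRad n - 1 / (exRad n + 1) := Iff.rfl

theorem im_pos_of_dist_le {n : ℕ} {z : ℂ}
    (h : dist z ((exRad n : ℂ) * Complex.I) ≤ exRad n - 1 / (exRad n + 1)) : 0 < z.im := by
  have h0 : (0 : ℝ) < 1 / (exRad n + 1) := by unfold exRad; positivity
  have h1 := Complex.abs_im_le_norm (z - (exRad n : ℂ) * Complex.I)
  rw [← dist_eq_norm] at h1
  have h2 : (z - (exRad n : ℂ) * Complex.I).im = z.im - exRad n := by simp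
  rw [h2] at h1
  have := abs_le.mp (h1.trans h)
  linarith [this.1]

theorem exBall_mono : Monotone exBall := by
  refine monotone_nat_of_le_succ fun n z hz => ?_
  rw [mem_exBall] at hz ⊢
  have h1 := dist_triangle z ((exRad n : ℂ) * Complex.I) ((exRad (n + 1) : ℂ) * Complex.I)
  have h2 : dist ((exRad n : ℂ) * Complex.I) ((exRad (n + 1) : ℂ) * Complex.I) = 1 := by
    simp [dist_eq_norm, ← sub_mul, exRad]
  have h3 : 1 / (exRad (n + 1) + 1) ≤ 1 / (exRad n + 1) := by
    apply one_div_le_one_div_of_le <;> (unfold exRad; push_cast; first | positivity | linarith)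
  have h4 : exRad (n + 1) = exRad n + 1 := by simp [exRad]
  rw [h2] at h1
  linarith

theorem exists_mem_exBall {z : ℂ} (hz : 0 < z.im) : ∃ n, z ∈ exBall n := by
  obtain ⟨n, hn⟩ := exists_nat_gt (max ((‖z‖ ^ 2 + 1) / z.im) (2 / z.im))
  refine ⟨n, ?_⟩
  rw [mem_exBall, dist_eq_norm]
  have hR : (n : ℝ) < exRad n := by simp [exRad]
  have hn1 : (‖z‖ ^ 2 + 1) < n * z.im := (div_lt_iff₀ hz).mp ((le_max_left _ _).trans_lt hn)
  have hn2 : 2 < n * z.im := (div_lt_iff₀ hz).mp ((le_max_right _ _).trans_lt hn)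
  set R := exRad n with hRdef
  have hR1 : 1 ≤ R := by simp [hRdef, exRad]
  have hε : 1 / (R + 1) * R ≤ 1 := by
    rw [div_mul_eq_mul_div, div_le_one (by linarith)]; linarith
  have hε0 : 0 ≤ 1 / (R + 1) := by positivity
  have hε1 : 1 / (R + 1) ≤ 1 := by rw [div_le_one (by linarith)]; linarith
  have hsq : ‖z - (R : ℂ) * Complex.I‖ ^ 2 = ‖z‖ ^ 2 - 2 * R * z.im + R ^ 2 := by
    simp [Complex.sq_norm, Complex.normSq_apply]; ring
  have hRy : (n : ℝ) * z.im < R * z.im := mul_lt_mul_of_pos_right hR hz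
  have hlt : ‖z - (R : ℂ) * Complex.I‖ ^ 2 < (R - 1 / (R + 1)) ^ 2 := by
    rw [hsq]; nlinarith
  exact lt_of_pow_lt_pow_left₀ 2 (by linarith) hlt

/-- A holomorphic function on the upper half plane whose zeros all have order divisible by `m`
is an `m`-th power. -/
theorem exists_differentiableOn_pow_eq {m : ℕ} (hm : m ≠ 0) {C : ℂ → ℂ}
    (hC : DifferentiableOn ℂ C upperHalfPlaneSet)
    (hord : ∀ z ∈ upperHalfPlaneSet, ∃ n : ℕ, analyticOrderAt C z = (m * n : ℕ)) :
    ∃ H : ℂ → ℂ, DifferentiableOn ℂ H upperHalfPlaneSet ∧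
      ∀ z ∈ upperHalfPlaneSet, H z ^ m = C z := by
  classical
  have hCa := hC.analyticOnNhd isOpen_upperHalfPlaneSet
  have hG : ∀ n, ∃ G : ℂ → ℂ, DifferentiableOn ℂ G (exBall n) ∧
      ∀ z ∈ exBall n, G z ^ m = C z := by
    intro n
    set c := (exRad n : ℂ) * Complex.I
    set r := exRad n - 1 / (exRad n + 1)
    have hsub : closedBall c r ⊆ upperHalfPlaneSet := fun z hz => im_pos_of_dist_le hz
    have hfin : ({z ∈ closedBall c r | C z = 0}).Finite := by
      have hcl : IsCompact {z ∈ closedBall c r | C z = 0} :=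
        (isCompact_closedBall c r).of_isClosed_subset
          ((hC.continuousOn.mono hsub).preimage_isClosed_of_isClosed isClosed_closedBall
            (isClosed_singleton (x := 0))) (fun z hz => hz.1)
      refine hcl.finite (isDiscrete_iff_nhdsNE.mpr fun z hz => ?_)
      rcases (hCa z (hsub hz.1)).eventually_eq_zero_or_eventually_ne_zero with h | h
      · obtain ⟨k, hk⟩ := hord z (hsub hz.1)
        rw [analyticOrderAt_eq_top.mpr h] at hk
        exact absurd hk.symm (ENat.natCast_ne_top _)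
      · rw [Filter.inf_principal_eq_bot]
        filter_upwards [h] with w hw hw'
        exact hw hw'.2
    exact exists_root_ball hm isOpen_upperHalfPlaneSet (ball_subset_closedBall.trans hsub)
      hfin.toFinset C hCa (fun z hz h => hfin.mem_toFinset.mpr ⟨ball_subset_closedBall hz, h⟩)
      (fun z hz => hord z (hsub (ball_subset_closedBall hz)))
  choose G hGd hGm using hG
  have hstep : ∀ n, ∃ ζ : ℂ, ζ ^ m = 1 ∧ ∀ z ∈ exBall n, G n z = ζ * G (n + 1) z := fun n =>
    exists_eqOn_mul_of_pow_eq hm (convex_ball _ _).isPreconnected isOpen_ball (hGd n)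
      ((hGd (n + 1)).mono (exBall_mono n.le_succ))
      fun z hz => by rw [hGm n z hz, hGm (n + 1) z (exBall_mono n.le_succ hz)]
  choose ζ hζ hζG using hstep
  let cs : ℕ → ℂ := fun n => ∏ i ∈ Finset.range n, ζ i
  have hagree : ∀ n k, ∀ z ∈ exBall n, cs n * G n z = cs (n + k) * G (n + k) z := by
    intro n k
    induction k with
    | zero => simp
    | succ k ih =>
      intro z hz
      rw [ih z hz, hζG (n + k) z (exBall_mono (Nat.le_add_right n k) hz), ← add_assoc]
      simp only [cs, Finset.prod_range_succ]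
      ring
  let N : ℂ → ℕ := fun z => if h : ∃ n, z ∈ exBall n then Nat.find h else 0
  refine ⟨fun z => cs (N z) * G (N z) z, fun z hz => ?_, fun z hz => ?_⟩
  · obtain ⟨n, hn⟩ := exists_mem_exBall hz
    have h1 : DifferentiableAt ℂ (fun w => cs n * G n w) z :=
      ((hGd n z hn).differentiableAt (isOpen_ball.mem_nhds hn)).const_mul _
    refine (h1.congr_of_eventuallyEq ?_).differentiableWithinAt
    filter_upwards [isOpen_ball.mem_nhds hn] with w hw
    have hex : ∃ n, w ∈ exBall n := ⟨n, hw⟩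
    simp only [N, dif_pos hex]
    obtain ⟨k, hk⟩ := Nat.exists_eq_add_of_le (Nat.find_min' hex hw)
    rw [hagree _ k w (Nat.find_spec hex), ← hk]
  · obtain ⟨n, hn⟩ := exists_mem_exBall hz
    have hex : ∃ n, z ∈ exBall n := ⟨n, hn⟩
    simp only [N, dif_pos hex]
    rw [mul_pow, hGm _ z (Nat.find_spec hex), ← Finset.prod_pow]
    simp [hζ]

end Fermat.Agent.JacTorsion
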